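import Mathlib
import Fermat.Prelude.Def_FLTPrelim_Modularity
import Fermat.Prelude.Def_FormalHecke_Eigensystem
import Fermat.Prelude.Def_ModularForm_HeckeOperatorForms
import Fermat.Prelude.Thm_CongruenceSubgroup_one_mem_strictPeriods_Gamma0
import Fermat.Prelude.Thm_ModularFormClass_qCoeff_heckeT
import Fermat.Prelude.Thm_ModularFormClass_qCoeff_heckeU
import Fermat.Prelude.Thm_UpperHalfPlane_eq_of_forall_qCoeff_eq

set_option autoImplicit false

open CongruenceSubgroup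

namespace Fermat.Agent.S49

/-- `1` is a strict period of (the image in `GL₂(ℝ)` of) `Γ₀(N)`. -/
theorem ef_one_mem_strictPeriods (N : ℕ) :
    (1 : ℝ) ∈ (Subgroup.map (Matrix.SpecialLinearGroup.mapGL ℝ) (Gamma0 N)).strictPeriods :=
  CongruenceSubgroup.one_mem_strictPeriods_Gamma0 N

/-- `q`-coefficients of a scalar multiple of a cusp form. -/
theorem ef_qCoeff_smul {N : ℕ} (c : ℂ) (f : CuspForm (Gamma0 N) 2) (n : ℕ) :
    ModularFormClass.qCoeff ⇑(c • f) n = c * ModularFormClass.qCoeff ⇑f n := by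
  have h1 : ⇑(c • f) = c • ⇑f := by
    ext z
    simp
  simp only [ModularFormClass.qCoeff, h1]
  rw [ModularForm.qExpansion_smul one_pos (ef_one_mem_strictPeriods N) c f]
  simp

/-- `q`-coefficients of `T_ℓ f` in weight `2`. -/
theorem ef_qCoeff_heckeTLin {N : ℕ} {ℓ : ℕ} (hℓ : ℓ.Prime) (hℓN : ¬ ℓ ∣ N)
    (f : CuspForm (Gamma0 N) 2) (n : ℕ) :
    ModularFormClass.qCoeff ⇑(CuspForm.heckeTLin 2 hℓ hℓN f) n =
      ModularFormClass.qCoeff ⇑f (n * ℓ) +
        if ℓ ∣ n then (ℓ : ℂ) * ModularFormClass.qCoeff ⇑f (n / ℓ) else 0 := by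
  rw [CuspForm.coe_heckeTLin_apply,
    ModularFormClass.qCoeff_heckeT f (ef_one_mem_strictPeriods N) hℓ.ne_zero n,
    ModularForm.coeffHeckeT_apply]
  norm_num

/-- `q`-coefficients of `U_q f`. -/
theorem ef_qCoeff_heckeULin {N : ℕ} [NeZero N] {q : ℕ} (hq : q.Prime) (hqN : q ∣ N)
    (f : CuspForm (Gamma0 N) 2) (n : ℕ) :
    ModularFormClass.qCoeff ⇑(CuspForm.heckeULin 2 hqN f) n =
      ModularFormClass.qCoeff ⇑f (n * q) := by
  rw [CuspForm.coe_heckeULin_apply,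
    ModularFormClass.qCoeff_heckeU f (ef_one_mem_strictPeriods N) hq.ne_zero n,
    ModularForm.coeffHeckeU_apply]

/-- The constant `q`-coefficient of a cusp form vanishes. -/
theorem ef_qCoeff_zero {N : ℕ} (f : CuspForm (Gamma0 N) 2) :
    ModularFormClass.qCoeff ⇑f 0 = 0 :=
  CuspFormClass.qExpansion_coeff_zero f one_pos (ef_one_mem_strictPeriods N)

/-- A cusp form all of whose `q`-coefficients vanish is zero. -/
theorem ef_eq_zero_of_forall_qCoeff_eq_zero {N : ℕ} (f : CuspForm (Gamma0 N) 2)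
    (h : ∀ n : ℕ, ModularFormClass.qCoeff ⇑f n = 0) : f = 0 := by
  have hΓ := ef_one_mem_strictPeriods N
  have : Fact (IsCusp OnePoint.infty
      (Subgroup.map (Matrix.SpecialLinearGroup.mapGL ℝ) (Gamma0 N))) :=
    ⟨Subgroup.isCusp_of_mem_strictPeriods one_pos hΓ⟩
  have hq : UpperHalfPlane.qExpansion 1 ⇑f = 0 := by
    ext n
    simpa [ModularFormClass.qCoeff] using h n
  have hf0 : (⇑f : UpperHalfPlane → ℂ) = 0 :=
    (UpperHalfPlane.qExpansion_eq_zero_iff one_pos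
      (SlashInvariantFormClass.periodic_comp_ofComplex f hΓ) (CuspFormClass.holo f)
      (ModularFormClass.bdd_at_infty f)).1 hq
  exact DFunLike.coe_injective hf0

/-- A nonzero weight-2 cusp form on `Γ₀(N)` that is a common eigenvector of all `T_ℓ` (`ℓ ∤ N`) and
all `U_q` (`q ∣ N`) has a scalar multiple whose `q`-expansion coefficients form a formal Hecke
eigensystem (with `e ℓ = ℓ` for `ℓ ∤ N` and `0` for `ℓ ∣ N`), and the `T_ℓ`-eigenvalue is its
`ℓ`-th coefficient. -/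
theorem exists_eigensystem_of_eigenvector {N : ℕ} [NeZero N]
    (g : CuspForm (Gamma0 N) 2) (hg : g ≠ 0)
    (hT : ∀ (ℓ : ℕ) (hℓ : ℓ.Prime) (hℓN : ¬ ℓ ∣ N), ∃ c : ℂ, CuspForm.heckeTLin 2 hℓ hℓN g = c • g)
    (hU : ∀ (q : ℕ) (_ : q.Prime) (hqN : q ∣ N), ∃ c : ℂ, CuspForm.heckeULin 2 hqN g = c • g) :
    ∃ f : CuspForm (Gamma0 N) 2,
      FormalHecke.IsEigensystem (fun ℓ : ℕ => if ℓ ∣ N then (0 : ℂ) else (ℓ : ℂ))
        (fun n => ModularFormClass.qCoeff f n) ∧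
      ∀ (ℓ : ℕ) (hℓ : ℓ.Prime) (hℓN : ¬ ℓ ∣ N),
        CuspForm.heckeTLin 2 hℓ hℓN g = ModularFormClass.qCoeff f ℓ • g := by
  -- the coefficient sequence of `g`
  obtain ⟨b, hb⟩ : ∃ b : ℕ → ℂ, ∀ n, ModularFormClass.qCoeff ⇑g n = b n := ⟨_, fun _ => rfl⟩
  have hb0 : b 0 = 0 := by rw [← hb]; exact ef_qCoeff_zero g
  -- the eigen-equations on coefficients
  have hTc : ∀ (ℓ : ℕ) (hℓ : ℓ.Prime) (hℓN : ¬ ℓ ∣ N) (c : ℂ),
      CuspForm.heckeTLin 2 hℓ hℓN g = c • g →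
      ∀ n : ℕ, b (n * ℓ) + (if ℓ ∣ n then (ℓ : ℂ) * b (n / ℓ) else 0) = c * b n := by
    intro ℓ hℓ hℓN c hc n
    have h := congrArg (fun F : CuspForm (Gamma0 N) 2 => ModularFormClass.qCoeff ⇑F n) hc
    simp only [ef_qCoeff_heckeTLin, ef_qCoeff_smul, hb] at h
    exact h
  have hUc : ∀ (q : ℕ) (_ : q.Prime) (hqN : q ∣ N) (c : ℂ),
      CuspForm.heckeULin 2 hqN g = c • g → ∀ n : ℕ, b (n * q) = c * b n := by
    intro q hq hqN c hc n
    have h := congrArg (fun F : CuspForm (Gamma0 N) 2 => ModularFormClass.qCoeff ⇑F n) hc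
    simp only [ef_qCoeff_heckeULin hq, ef_qCoeff_smul, hb] at h
    exact h
  -- the first coefficient is nonzero
  have hb1 : b 1 ≠ 0 := by
    intro h1
    apply hg
    apply ef_eq_zero_of_forall_qCoeff_eq_zero
    intro n
    rw [hb]
    induction n using Nat.strong_induction_on with
    | _ n ih =>
      rcases Nat.lt_or_ge n 2 with hn | hn
      · interval_cases n
        · exact hb0
        · exact h1
      · obtain ⟨ℓ, hℓ, hℓn⟩ := Nat.exists_prime_and_dvd (show n ≠ 1 by omega)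
        obtain ⟨m, rfl⟩ := hℓn
        have hm_pos : 0 < m := by
          rcases Nat.eq_zero_or_pos m with h0 | h0
          · subst h0; omega
          · exact h0
        have hm_lt : m < ℓ * m := by
          have := hℓ.two_le
          nlinarith
        by_cases hℓN : ℓ ∣ N
        · obtain ⟨c, hc⟩ := hU ℓ hℓ hℓN
          have h := hUc ℓ hℓ hℓN c hc m
          rw [mul_comm, h, ih m hm_lt, mul_zero]
        · obtain ⟨c, hc⟩ := hT ℓ hℓ hℓN
          have h := hTc ℓ hℓ hℓN c hc m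
          have h2 : (if ℓ ∣ m then (ℓ : ℂ) * b (m / ℓ) else 0) = 0 := by
            split_ifs with hd
            · rw [ih (m / ℓ) (lt_of_le_of_lt (Nat.div_le_self _ _) hm_lt), mul_zero]
            · rfl
          rw [ih m hm_lt, h2, add_zero, mul_zero] at h
          rw [mul_comm]
          exact h
  -- eigenvalues are `b ℓ / b 1`
  have hTval : ∀ (ℓ : ℕ) (hℓ : ℓ.Prime) (hℓN : ¬ ℓ ∣ N) (c : ℂ),
      CuspForm.heckeTLin 2 hℓ hℓN g = c • g → c = (b 1)⁻¹ * b ℓ := by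
    intro ℓ hℓ hℓN c hc
    have h := hTc ℓ hℓ hℓN c hc 1
    have hnd : ¬ ℓ ∣ 1 := by
      rw [Nat.dvd_one]
      exact hℓ.ne_one
    rw [if_neg hnd, add_zero, one_mul] at h
    rw [h]
    field_simp
  have hUval : ∀ (q : ℕ) (_ : q.Prime) (hqN : q ∣ N) (c : ℂ),
      CuspForm.heckeULin 2 hqN g = c • g → c = (b 1)⁻¹ * b q := by
    intro q hq hqN c hc
    have h := hUc q hq hqN c hc 1
    rw [one_mul] at h
    rw [h]
    field_simp
  refine ⟨(b 1)⁻¹ • g, ⟨?_, ?_⟩, ?_⟩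
  · show ModularFormClass.qCoeff ⇑((b 1)⁻¹ • g) 1 = 1
    rw [ef_qCoeff_smul, hb]
    exact inv_mul_cancel₀ hb1
  · intro ℓ hℓ n
    show ModularFormClass.qCoeff ⇑((b 1)⁻¹ • g) (ℓ * n) +
        (if ℓ ∣ N then (0 : ℂ) else (ℓ : ℂ)) *
          (if ℓ ∣ n then ModularFormClass.qCoeff ⇑((b 1)⁻¹ • g) (n / ℓ) else 0) =
      ModularFormClass.qCoeff ⇑((b 1)⁻¹ • g) ℓ * ModularFormClass.qCoeff ⇑((b 1)⁻¹ • g) n
    simp only [ef_qCoeff_smul, hb]
    by_cases hℓN : ℓ ∣ N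
    · obtain ⟨c, hc⟩ := hU ℓ hℓ hℓN
      have hn := hUc ℓ hℓ hℓN c hc n
      have hcv := hUval ℓ hℓ hℓN c hc
      rw [if_pos hℓN, zero_mul, add_zero, mul_comm ℓ n, hn, hcv]
      ring
    · obtain ⟨c, hc⟩ := hT ℓ hℓ hℓN
      have hn := hTc ℓ hℓ hℓN c hc n
      have hcv := hTval ℓ hℓ hℓN c hc
      rw [if_neg hℓN, mul_comm ℓ n]
      rw [hcv] at hn
      have hb' : b (n * ℓ) = (b 1)⁻¹ * b ℓ * b n - (if ℓ ∣ n then (ℓ : ℂ) * b (n / ℓ) else 0) := by
        rw [← hn]; ring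
      rw [hb']
      split_ifs <;> ring
  · intro ℓ hℓ hℓN
    obtain ⟨c, hc⟩ := hT ℓ hℓ hℓN
    rw [ef_qCoeff_smul, hb, ← hTval ℓ hℓ hℓN c hc]
    exact hc

end Fermat.Agent.S49
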