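import Mathlib
import Fermat.Prelude.Def_FormalHecke_Eigensystem

set_option autoImplicit false

namespace Fermat.Agent.S49

/-- Coprime multiplicativity of a formal Hecke eigensystem. -/
theorem fm_mul_of_coprime {R : Type*} [CommRing R] {e a : ℕ → R}
    (h : FormalHecke.IsEigensystem e a) :
    ∀ m n : ℕ, m.Coprime n → a (m * n) = a m * a n := by
  obtain ⟨h1, hE⟩ := h
  intro m
  induction m using Nat.strong_induction_on with
  | _ m ih =>
    intro n hmn
    rcases Nat.lt_or_ge m 2 with hm | hm
    · interval_cases m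
      · -- `m = 0`: coprimality forces `n = 1`
        have hn : n = 1 := by simpa using hmn
        subst hn
        simp [h1]
      · -- `m = 1`
        simp [h1]
    · -- `m ≥ 2`: split off a prime factor
      obtain ⟨ℓ, hℓ, hdvd⟩ := Nat.exists_prime_and_dvd (show m ≠ 1 by omega)
      obtain ⟨m', rfl⟩ := hdvd
      have hm'pos : 0 < m' := by
        rcases Nat.eq_zero_or_pos m' with h0 | h0
        · subst h0; simp at hm
        · exact h0
      have hm'lt : m' < ℓ * m' := by
        have := hℓ.two_le
        nlinarith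
      have hℓn : Nat.Coprime ℓ n := Nat.Coprime.coprime_mul_right hmn
      have hm'n : Nat.Coprime m' n := Nat.Coprime.coprime_mul_left hmn
      have hℓndvd : ¬ ℓ ∣ n := (Nat.Prime.coprime_iff_not_dvd hℓ).1 hℓn
      have key1 := hE ℓ hℓ (m' * n)
      have key2 := hE ℓ hℓ m'
      have ih1 := ih m' hm'lt n hm'n
      by_cases hd : ℓ ∣ m'
      · obtain ⟨m'', rfl⟩ := hd
        have hm''pos : 0 < m'' := by
          rcases Nat.eq_zero_or_pos m'' with h0 | h0
          · subst h0; simp at hm'pos
          · exact h0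
        have hm''lt : m'' < ℓ * (ℓ * m'') := by
          have := hℓ.two_le
          nlinarith
        have hm''n : Nat.Coprime m'' n := Nat.Coprime.coprime_mul_left hm'n
        have ih2 := ih m'' hm''lt n hm''n
        have hd1 : ℓ ∣ ℓ * m'' * n := ⟨m'' * n, by ring⟩
        have hd2 : ℓ ∣ ℓ * m'' := ⟨m'', rfl⟩
        have hq1 : ℓ * m'' * n / ℓ = m'' * n := by
          rw [mul_assoc]
          exact Nat.mul_div_cancel_left _ hℓ.pos
        have hq2 : ℓ * m'' / ℓ = m'' := Nat.mul_div_cancel_left _ hℓ.pos
        rw [if_pos hd1, hq1] at key1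
        rw [if_pos hd2, hq2] at key2
        have hassoc : ℓ * (ℓ * m'') * n = ℓ * (ℓ * m'' * n) := by ring
        rw [hassoc]
        linear_combination key1 + a ℓ * ih1 - e ℓ * ih2 - a n * key2
      · have hd1 : ¬ ℓ ∣ m' * n := by
          intro hdiv
          rcases (Nat.Prime.dvd_mul hℓ).1 hdiv with h' | h'
          · exact hd h'
          · exact hℓndvd h'
        rw [if_neg hd1] at key1
        rw [if_neg hd] at key2
        have hassoc : ℓ * m' * n = ℓ * (m' * n) := by ring
        rw [hassoc]
        linear_combination key1 + a ℓ * ih1 - a n * key2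

/-- A formal Hecke eigensystem is multiplicative and satisfies the prime-power recursion. -/
theorem isRecursive_of_isEigensystem {R : Type*} [CommRing R] {e a : ℕ → R}
    (h : FormalHecke.IsEigensystem e a) : FormalHecke.IsRecursive e a := by
  refine ⟨h.1, fm_mul_of_coprime h, ?_⟩
  intro ℓ r hℓ
  have key := h.2 ℓ hℓ (ℓ ^ (r + 1))
  have hd : ℓ ∣ ℓ ^ (r + 1) := ⟨ℓ ^ r, by ring⟩
  have hq : ℓ ^ (r + 1) / ℓ = ℓ ^ r := by
    rw [pow_succ]
    exact Nat.mul_div_cancel _ hℓ.pos
  have hp : ℓ * ℓ ^ (r + 1) = ℓ ^ (r + 2) := by ring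
  rw [if_pos hd, hq, hp] at key
  linear_combination key

end Fermat.Agent.S49
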