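import Mathlib

set_option autoImplicit false

namespace Fermat.Agent.S49

/-- Commutativity of the operators `ρ s`, `ρ t` applied to a vector. -/
theorem la_comm_apply
    {K : Type*} [Field K] {V : Type*} [AddCommGroup V] [Module K V]
    {A : Type*} [CommRing A]
    (ρ : A →+* Module.End K V) (s t : A) (w : V) :
    ρ s (ρ t w) = ρ t (ρ s w) := by
  rw [← Module.End.mul_apply, ← Module.End.mul_apply, ← map_mul, ← map_mul, mul_comm]

/-- Step (1): a nonzero subspace stable under a commuting family of operators (the image of a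
commutative ring) contains a common eigenvector. -/
theorem la_exists_common_eigenvector
    {K : Type*} [Field K] [IsAlgClosed K] {V : Type*} [AddCommGroup V] [Module K V]
    [FiniteDimensional K V] {A : Type*} [CommRing A]
    (ρ : A →+* Module.End K V) :
    ∀ (n : ℕ) (W : Submodule K V), Module.finrank K W = n → W ≠ ⊥ →
      (∀ t : A, ∀ w ∈ W, ρ t w ∈ W) →
      ∃ v ∈ W, v ≠ 0 ∧ ∀ t : A, ∃ c : K, ρ t v = c • v := by
  intro n
  induction n using Nat.strong_induction_on with
  | _ n ih =>
    intro W hn hW hstab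
    by_cases hsc : ∀ t : A, ∃ c : K, ∀ w ∈ W, ρ t w = c • w
    · obtain ⟨v, hvW, hv0⟩ := Submodule.exists_mem_ne_zero_of_ne_bot hW
      refine ⟨v, hvW, hv0, fun t => ?_⟩
      obtain ⟨c, hc⟩ := hsc t
      exact ⟨c, hc v hvW⟩
    · push Not at hsc
      obtain ⟨t, ht⟩ := hsc
      have hmaps : ∀ w ∈ W, ρ t w ∈ W := hstab t
      have : Nontrivial W := Submodule.nontrivial_iff_ne_bot.mpr hW
      obtain ⟨c, hc⟩ := Module.End.exists_eigenvalue ((ρ t).restrict hmaps)
      obtain ⟨w0, hw0⟩ := hc.exists_hasEigenvector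
      have hw0eq : ρ t (w0 : V) = c • (w0 : V) := by
        have h1 := hw0.apply_eq_smul
        have h2 := congrArg (Subtype.val) h1
        simpa using h2
      have hw0ne : (w0 : V) ≠ 0 := by
        intro h
        exact hw0.2 (Subtype.ext h)
      -- the smaller stable subspace
      have key := ih (Module.finrank K ↥(W ⊓ Module.End.eigenspace (ρ t) c)) ?_
        (W ⊓ Module.End.eigenspace (ρ t) c) rfl ?_ ?_
      · obtain ⟨v, hvW', hv0, hv⟩ := key
        exact ⟨v, hvW'.1, hv0, hv⟩
      · -- strictly smaller dimension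
        rw [← hn]
        apply Submodule.finrank_lt_finrank_of_lt
        refine lt_of_le_of_ne inf_le_left ?_
        intro heq
        obtain ⟨w, hwW, hw⟩ := ht c
        apply hw
        have : w ∈ W ⊓ Module.End.eigenspace (ρ t) c := by rw [heq]; exact hwW
        exact Module.End.mem_eigenspace_iff.mp this.2
      · -- nonzero
        intro hbot
        have : (w0 : V) ∈ W ⊓ Module.End.eigenspace (ρ t) c :=
          ⟨w0.2, Module.End.mem_eigenspace_iff.mpr hw0eq⟩
        rw [hbot] at this
        exact hw0ne ((Submodule.mem_bot K).mp this)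
      · -- stable
        intro s w hw
        refine ⟨hstab s w hw.1, Module.End.mem_eigenspace_iff.mpr ?_⟩
        rw [la_comm_apply ρ t s w, Module.End.mem_eigenspace_iff.mp hw.2, map_smul]

/-- Step (2): a common eigenvector gives a character `A →+* K`. -/
theorem la_exists_character
    {K : Type*} [Field K] {V : Type*} [AddCommGroup V] [Module K V]
    {A : Type*} [CommRing A]
    (ρ : A →+* Module.End K V) (v : V) (hv : v ≠ 0) (h : ∀ t : A, ∃ c : K, ρ t v = c • v) :
    ∃ μ : A →+* K, ∀ t : A, ρ t v = μ t • v := by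
  choose μ hμ using h
  have inj : Function.Injective fun c : K => c • v := smul_left_injective K hv
  refine ⟨{ toFun := μ, map_one' := ?_, map_mul' := ?_, map_zero' := ?_, map_add' := ?_ }, hμ⟩
  · apply inj
    change μ 1 • v = (1 : K) • v
    rw [← hμ, map_one, one_smul, Module.End.one_apply]
  · intro a b
    apply inj
    change μ (a * b) • v = (μ a * μ b) • v
    rw [← hμ, map_mul, Module.End.mul_apply, hμ b, map_smul, hμ a, smul_smul, mul_comm]
  · apply inj
    change μ 0 • v = (0 : K) • v
    rw [← hμ, map_zero, zero_smul, LinearMap.zero_apply]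
  · intro a b
    apply inj
    change μ (a + b) • v = (μ a + μ b) • v
    rw [← hμ, map_add, LinearMap.add_apply, hμ a, hμ b, add_smul]

/-- Step (3): if every eigencharacter kills some element of the submonoid `S`, then every stable
subspace is killed by some element of `S`. -/
theorem la_exists_kill
    {K : Type*} [Field K] [IsAlgClosed K] {V : Type*} [AddCommGroup V] [Module K V]
    [FiniteDimensional K V] {A : Type*} [CommRing A]
    (ρ : A →+* Module.End K V) (S : Submonoid A)
    (H : ∀ (v : V) (μ : A →+* K), v ≠ 0 → (∀ t : A, ρ t v = μ t • v) → ∃ s ∈ S, μ s = 0) :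
    ∀ (n : ℕ) (W : Submodule K V), Module.finrank K W = n →
      (∀ t : A, ∀ w ∈ W, ρ t w ∈ W) → ∃ s ∈ S, ∀ w ∈ W, ρ s w = 0 := by
  intro n
  induction n using Nat.strong_induction_on with
  | _ n ih =>
    intro W hn hstab
    by_cases hW : W = ⊥
    · refine ⟨1, S.one_mem, fun w hw => ?_⟩
      rw [hW] at hw
      rw [(Submodule.mem_bot K).mp hw, map_zero]
    · obtain ⟨v, hvW, hv0, hv⟩ := la_exists_common_eigenvector ρ _ W rfl hW hstab
      obtain ⟨μ, hμ⟩ := la_exists_character ρ v hv0 hv
      obtain ⟨t, htS, ht0⟩ := H v μ hv0 hμ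
      have htv : ρ t v = 0 := by rw [hμ t, ht0, zero_smul]
      -- the image `W.map (ρ t)` is stable and of smaller dimension
      have hlt : Module.finrank K ↥(W.map (ρ t)) < n := by
        have h1 := LinearMap.finrank_range_add_finrank_ker ((ρ t).domRestrict W)
        rw [LinearMap.range_domRestrict, hn] at h1
        have h2 : 0 < Module.finrank K ↥(LinearMap.ker ((ρ t).domRestrict W)) := by
          rw [Module.finrank_pos_iff_exists_ne_zero]
          have hmem : (⟨v, hvW⟩ : W) ∈ LinearMap.ker ((ρ t).domRestrict W) := by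
            rw [LinearMap.mem_ker]
            exact htv
          refine ⟨⟨⟨v, hvW⟩, hmem⟩, fun h => hv0 ?_⟩
          have h3 : (((⟨⟨v, hvW⟩, hmem⟩ : LinearMap.ker ((ρ t).domRestrict W)) : W) : V) = 0 := by
            rw [h]; rfl
          exact h3
        omega
      have hstab' : ∀ s : A, ∀ w ∈ W.map (ρ t), ρ s w ∈ W.map (ρ t) := by
        intro s w hw
        obtain ⟨u, huW, rfl⟩ := (Submodule.mem_map).mp hw
        refine (Submodule.mem_map).mpr ⟨ρ s u, hstab s u huW, ?_⟩
        exact la_comm_apply ρ t s u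
      obtain ⟨s', hs'S, hs'⟩ := ih _ hlt (W.map (ρ t)) rfl hstab'
      refine ⟨s' * t, S.mul_mem hs'S htS, fun w hw => ?_⟩
      rw [map_mul, Module.End.mul_apply]
      exact hs' _ (Submodule.mem_map_of_mem hw)

/-- A commutative ring acting faithfully on a finite-dimensional vector space over an algebraically
closed field: for every prime ideal `𝔫` there is a common eigenvector whose eigencharacter has
kernel contained in `𝔫`. -/
theorem exists_eigenvector_ker_le_prime
    {K : Type*} [Field K] [IsAlgClosed K] {V : Type*} [AddCommGroup V] [Module K V]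
    [FiniteDimensional K V] {A : Type*} [CommRing A]
    (ρ : A →+* Module.End K V) (hρ : Function.Injective ρ)
    (𝔫 : Ideal A) [𝔫.IsPrime] :
    ∃ (v : V) (μ : A →+* K), v ≠ 0 ∧ (∀ t : A, ρ t v = μ t • v) ∧ RingHom.ker μ ≤ 𝔫 := by
  by_contra hcon
  have H : ∀ (v : V) (μ : A →+* K), v ≠ 0 → (∀ t : A, ρ t v = μ t • v) →
      ∃ s ∈ 𝔫.primeCompl, μ s = 0 := by
    intro v μ hv0 hμ
    by_contra hno
    apply hcon
    refine ⟨v, μ, hv0, hμ, fun s hs => ?_⟩
    by_contra hsn
    exact hno ⟨s, hsn, (RingHom.mem_ker).mp hs⟩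
  obtain ⟨s, hsS, hs⟩ := la_exists_kill ρ 𝔫.primeCompl H _ ⊤ rfl (fun _ _ _ => Submodule.mem_top)
  have hρs : ρ s = ρ 0 := by
    rw [map_zero]
    ext w
    exact hs w Submodule.mem_top
  have hs0 : s = 0 := hρ hρs
  apply hsS
  rw [hs0]
  exact 𝔫.zero_mem

end Fermat.Agent.S49
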