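import Mathlib
import Fermat.Prelude.Def_CuspForm_IntegralLattice
import Fermat.Prelude.Def_FormalHecke_Eigensystem
import Fermat.Prelude.Def_CuspForm_HeckeAlgebra
import Fermat.Prelude.Def_CuspForm_IntegralStructure
import Fermat.Prelude.Thm_CuspForm_intLattice_fg
import Fermat.Prelude.Thm_CuspForm_mem_intLattice_of_mem_heckeAlgebra
import Fermat.Prelude.Thm_CongruenceSubgroup_one_mem_strictPeriods_Gamma0
import Fermat.Prelude.Thm_ModularFormClass_qCoeff_heckeT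

set_option autoImplicit false

open CongruenceSubgroup ModularFormClass UpperHalfPlane

namespace Fermat.Agent.S49

variable {N : ℕ}

/-! ### `q`-coefficient bookkeeping on `CuspForm (Gamma0 N) 2` -/

theorem m3_qCoeff_add (f g : CuspForm (Gamma0 N) 2) (n : ℕ) :
    qCoeff ⇑(f + g) n = qCoeff ⇑f n + qCoeff ⇑g n := by
  have h1 : ⇑(f + g) = ⇑f + ⇑g := by
    ext z
    simp
  simp only [qCoeff, h1]
  rw [ModularForm.qExpansion_add one_pos (one_mem_strictPeriods_Gamma0 N) f g, map_add]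

theorem m3_qCoeff_sub (f g : CuspForm (Gamma0 N) 2) (n : ℕ) :
    qCoeff ⇑(f - g) n = qCoeff ⇑f n - qCoeff ⇑g n := by
  have h1 : ⇑(f - g) = ⇑f - ⇑g := by
    ext z
    simp
  simp only [qCoeff, h1]
  rw [ModularForm.qExpansion_sub one_pos (one_mem_strictPeriods_Gamma0 N) f g, map_sub]

theorem m3_qCoeff_smul (c : ℂ) (f : CuspForm (Gamma0 N) 2) (n : ℕ) :
    qCoeff ⇑(c • f) n = c * qCoeff ⇑f n := by
  have h1 : ⇑(c • f) = c • ⇑f := by
    ext z
    simp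
  simp only [qCoeff, h1]
  rw [ModularForm.qExpansion_smul one_pos (one_mem_strictPeriods_Gamma0 N) c f]
  simp

theorem m3_qCoeff_zero (n : ℕ) : qCoeff ⇑(0 : CuspForm (Gamma0 N) 2) n = 0 := by
  have h1 : ⇑(0 : CuspForm (Gamma0 N) 2) = 0 := by
    ext z
    simp
  simp only [qCoeff, h1]
  rw [UpperHalfPlane.qExpansion_zero, map_zero]

theorem m3_qCoeff_heckeTLin {ℓ : ℕ} (hℓ : ℓ.Prime) (hℓN : ¬ ℓ ∣ N) (f : CuspForm (Gamma0 N) 2)
    (n : ℕ) :
    qCoeff ⇑(CuspForm.heckeTLin 2 hℓ hℓN f) n =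
      qCoeff ⇑f (n * ℓ) + if ℓ ∣ n then (ℓ : ℂ) * qCoeff ⇑f (n / ℓ) else 0 := by
  rw [CuspForm.coe_heckeTLin_apply,
    ModularFormClass.qCoeff_heckeT f (one_mem_strictPeriods_Gamma0 N) hℓ.ne_zero n,
    ModularForm.coeffHeckeT_apply]
  norm_num

theorem m3_mem_intLattice_iff (f : CuspForm (Gamma0 N) 2) :
    f ∈ CuspForm.intLattice N 2 ↔ ∀ n : ℕ, ∃ m : ℤ, qCoeff f n = (m : ℂ) := by
  constructor
  · intro hf
    refine Submodule.span_induction
      (p := fun (f : CuspForm (Gamma0 N) 2) _ => ∀ n : ℕ, ∃ m : ℤ, qCoeff ⇑f n = (m : ℂ))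
      ?_ ?_ ?_ ?_ hf
    · intro x hx
      exact hx
    · intro n
      exact ⟨0, by rw [m3_qCoeff_zero]; simp⟩
    · intro x y _ _ hx hy n
      obtain ⟨a, ha⟩ := hx n
      obtain ⟨b, hb⟩ := hy n
      exact ⟨a + b, by rw [m3_qCoeff_add, ha, hb]; push_cast; ring⟩
    · intro c x _ hx n
      obtain ⟨a, ha⟩ := hx n
      refine ⟨c * a, ?_⟩
      rw [← Int.cast_smul_eq_zsmul ℂ c x, m3_qCoeff_smul, ha]
      push_cast
      ring
  · intro hf
    exact Submodule.subset_span hf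

/-! ### Consequences of the integral basis -/

theorem m3_span_intLattice (h : CuspForm.HasIntegralBasis N) :
    Submodule.span ℂ ((CuspForm.intLattice N 2 : Submodule ℤ (CuspForm (Gamma0 N) 2)) :
      Set (CuspForm (Gamma0 N) 2)) = ⊤ := by
  rw [eq_top_iff, ← h]
  apply Submodule.span_mono
  intro f hf
  refine Submodule.subset_span fun n => ?_
  obtain ⟨m, hm⟩ := Subring.mem_bot.mp (hf n)
  exact ⟨m, hm.symm⟩

theorem m3_finiteDimensional [NeZero N] (h : CuspForm.HasIntegralBasis N) :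
    FiniteDimensional ℂ (CuspForm (Gamma0 N) 2) := by
  obtain ⟨s, hs⟩ := CuspForm.intLattice_fg N 2
  refine Module.finite_def.mpr ⟨s, ?_⟩
  rw [eq_top_iff, ← m3_span_intLattice h]
  apply Submodule.span_le.mpr
  intro f hf
  rw [SetLike.mem_coe, ← hs] at hf
  exact Submodule.span_subset_span ℤ ℂ _ hf

theorem m3_isIntegral [NeZero N] (h : CuspForm.HasIntegralBasis N)
    (t : CuspForm.heckeAlgebra N 2 ∅) : IsIntegral ℤ t := by
  have : Module.Finite ℤ (CuspForm.intLattice N 2) :=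
    Module.Finite.of_fg (CuspForm.intLattice_fg N 2)
  have hstab : ∀ (t : CuspForm.heckeAlgebra N 2 ∅), ∀ x ∈ CuspForm.intLattice N 2,
      ((t : Module.End ℂ (CuspForm (Gamma0 N) 2)).restrictScalars ℤ) x ∈ CuspForm.intLattice N 2 :=
    fun t x hx => CuspForm.mem_intLattice_of_mem_heckeAlgebra (by norm_num) t.2 hx
  let r : CuspForm.heckeAlgebra N 2 ∅ →+* Module.End ℤ (CuspForm.intLattice N 2) :=
    { toFun := fun t =>
        ((t : Module.End ℂ (CuspForm (Gamma0 N) 2)).restrictScalars ℤ).restrict (hstab t)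
      map_one' := by ext x; rfl
      map_mul' := fun s t => by ext x; rfl
      map_zero' := by ext x; rfl
      map_add' := fun s t => by ext x; rfl }
  have hr : Function.Injective r := by
    intro s t hst
    apply Subtype.ext
    apply LinearMap.ext_on (m3_span_intLattice h)
    intro x hx
    exact congrArg (fun u : Module.End ℤ (CuspForm.intLattice N 2) =>
      (u ⟨x, hx⟩ : CuspForm (Gamma0 N) 2)) hst
  exact (isIntegral_algHom_iff r.toIntAlgHom hr).mp (Algebra.IsIntegral.isIntegral (r t))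

/-! ### The mod 3 ideal -/

theorem m3_three_stable [NeZero N] {s : Module.End ℂ (CuspForm (Gamma0 N) 2)}
    (hs : s ∈ CuspForm.heckeAlgebra N 2 ∅) (u : CuspForm (Gamma0 N) 2)
    (hu : ∀ n : ℕ, ∃ m : ℤ, qCoeff ⇑u n = 3 * (m : ℂ)) :
    ∀ n : ℕ, ∃ m : ℤ, qCoeff ⇑(s u) n = 3 * (m : ℂ) := by
  have hu' : ((3 : ℂ)⁻¹ • u) ∈ CuspForm.intLattice N 2 := by
    rw [m3_mem_intLattice_iff]
    intro n
    obtain ⟨m, hm⟩ := hu n
    exact ⟨m, by rw [m3_qCoeff_smul, hm]; field_simp⟩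
  have h2 := CuspForm.mem_intLattice_of_mem_heckeAlgebra (by norm_num : (1 : ℤ) ≤ 2) hs hu'
  rw [m3_mem_intLattice_iff] at h2
  intro n
  obtain ⟨m, hm⟩ := h2 n
  refine ⟨m, ?_⟩
  have h3 : s u = (3 : ℂ) • s ((3 : ℂ)⁻¹ • u) := by
    rw [map_smul, smul_smul]
    simp
  rw [h3, m3_qCoeff_smul, hm]

/-- The ideal of Hecke operators sending `f₀` into `3 • (integral lattice)`. -/
def m3_ideal (N : ℕ) [NeZero N] (f₀ : CuspForm (Gamma0 N) 2) :
    Ideal (CuspForm.heckeAlgebra N 2 ∅) where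
  carrier := {t | ∀ n : ℕ, ∃ m : ℤ,
    qCoeff ⇑((t : Module.End ℂ (CuspForm (Gamma0 N) 2)) f₀) n = 3 * (m : ℂ)}
  add_mem' := by
    intro s t hs ht n
    obtain ⟨a, ha⟩ := hs n
    obtain ⟨b, hb⟩ := ht n
    refine ⟨a + b, ?_⟩
    have : ((s + t : CuspForm.heckeAlgebra N 2 ∅) : Module.End ℂ (CuspForm (Gamma0 N) 2)) f₀ =
        (s : Module.End ℂ (CuspForm (Gamma0 N) 2)) f₀ +
          (t : Module.End ℂ (CuspForm (Gamma0 N) 2)) f₀ := rfl
    rw [this, m3_qCoeff_add, ha, hb]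
    push_cast
    ring
  zero_mem' := by
    intro n
    refine ⟨0, ?_⟩
    have : ((0 : CuspForm.heckeAlgebra N 2 ∅) : Module.End ℂ (CuspForm (Gamma0 N) 2)) f₀ = 0 := rfl
    rw [this, m3_qCoeff_zero]
    simp
  smul_mem' := by
    intro s t ht
    have : ((s • t : CuspForm.heckeAlgebra N 2 ∅) : Module.End ℂ (CuspForm (Gamma0 N) 2)) f₀ =
        (s : Module.End ℂ (CuspForm (Gamma0 N) 2))
          ((t : Module.End ℂ (CuspForm (Gamma0 N) 2)) f₀) := rfl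
    show ∀ n : ℕ, ∃ m : ℤ, qCoeff
      ⇑(((s • t : CuspForm.heckeAlgebra N 2 ∅) : Module.End ℂ (CuspForm (Gamma0 N) 2)) f₀) n =
        3 * (m : ℂ)
    rw [this]
    exact m3_three_stable s.2 _ ht

theorem m3_mem_ideal [NeZero N] (f₀ : CuspForm (Gamma0 N) 2) (t : CuspForm.heckeAlgebra N 2 ∅) :
    t ∈ m3_ideal N f₀ ↔ ∀ n : ℕ, ∃ m : ℤ,
      qCoeff ⇑((t : Module.End ℂ (CuspForm (Gamma0 N) 2)) f₀) n = 3 * (m : ℂ) := Iff.rfl

theorem m3_bridge_coeff (a : ℕ → ℤ) (n : ℕ) : (3 : ℤ) ∣ (bridgeProduct a).coeff n - a n := by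
  have hE : EisensteinWeightOne.e1Chi3In ℤ = 1 + PowerSeries.C (3 : ℤ) *
      PowerSeries.mk (fun n => if n = 0 then 0 else 2 * EisensteinWeightOne.sigmaChi n) := by
    ext n
    simp only [EisensteinWeightOne.e1Chi3In, EisensteinWeightOne.e1Chi3, PowerSeries.coeff_map,
      PowerSeries.coeff_mk, map_add, PowerSeries.coeff_one, PowerSeries.coeff_C_mul]
    split_ifs <;> simp
    ring
  rw [bridgeProduct, hE, mul_add, mul_one, map_add, PowerSeries.coeff_mk, mul_left_comm,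
    PowerSeries.coeff_C_mul]
  simp

theorem m3_chi_congr (ℓ : ℕ) : (3 : ℤ) ∣ (ℓ : ℤ) - EisensteinWeightOne.chiNegThree ℓ := by
  unfold EisensteinWeightOne.chiNegThree
  split_ifs with h1 h2 <;> omega

theorem m3_exists_maximal [NeZero N] {a : ℕ → ℤ}
    (heig : FormalHecke.IsEigensystem
      (fun ℓ => if ℓ ∣ N then 0 else ((EisensteinWeightOne.chiNegThree ℓ : ℤ) : ℤ)) a)
    (hreal : CuspForm.IsLatticeRealized N a) :
    ∃ 𝔫 : Ideal (CuspForm.heckeAlgebra N 2 ∅), 𝔫.IsMaximal ∧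
      (3 : CuspForm.heckeAlgebra N 2 ∅) ∈ 𝔫 ∧
      ∀ (ℓ : ℕ) (hℓ : ℓ.Prime) (hℓN : ¬ ℓ ∣ N),
        CuspForm.heckeAlgebra.T hℓ hℓN (Set.notMem_empty ℓ) -
          (a ℓ : CuspForm.heckeAlgebra N 2 ∅) ∈ 𝔫 := by
  obtain ⟨f₀, -, af, haf, hdiv⟩ := hreal
  have hcong : ∀ n, (3 : ℤ) ∣ af n - a n := fun n => by
    have := dvd_add (hdiv n) (m3_bridge_coeff a n)
    simpa using this
  have hne : m3_ideal N f₀ ≠ ⊤ := by
    intro htop
    have h1 : (1 : CuspForm.heckeAlgebra N 2 ∅) ∈ m3_ideal N f₀ := by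
      rw [htop]
      trivial
    rw [m3_mem_ideal] at h1
    obtain ⟨m, hm⟩ := h1 1
    have h2 : ((1 : CuspForm.heckeAlgebra N 2 ∅) :
        Module.End ℂ (CuspForm (Gamma0 N) 2)) f₀ = f₀ := rfl
    rw [h2, ← haf 1] at hm
    have h3 : af 1 = 3 * m := by exact_mod_cast hm
    have h4 := hcong 1
    rw [heig.1, h3] at h4
    omega
  obtain ⟨𝔫, h𝔫max, hle⟩ := Ideal.exists_le_maximal _ hne
  refine ⟨𝔫, h𝔫max, hle ?_, fun ℓ hℓ hℓN => hle ?_⟩
  · rw [m3_mem_ideal]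
    intro n
    refine ⟨af n, ?_⟩
    have h1 : ((3 : CuspForm.heckeAlgebra N 2 ∅) :
        Module.End ℂ (CuspForm (Gamma0 N) 2)) = 3 := rfl
    have h2 : ((3 : CuspForm.heckeAlgebra N 2 ∅) :
        Module.End ℂ (CuspForm (Gamma0 N) 2)) f₀ = (3 : ℂ) • f₀ := by
      rw [h1]
      simp
      exact (ofNat_smul_eq_nsmul ℂ 3 f₀).symm
    rw [h2, m3_qCoeff_smul, haf]
  · rw [m3_mem_ideal]
    intro n
    have h1 : ((CuspForm.heckeAlgebra.T hℓ hℓN (Set.notMem_empty ℓ) -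
        (a ℓ : CuspForm.heckeAlgebra N 2 ∅) : CuspForm.heckeAlgebra N 2 ∅) :
        Module.End ℂ (CuspForm (Gamma0 N) 2)) =
        CuspForm.heckeTLin 2 hℓ hℓN - (a ℓ : Module.End ℂ (CuspForm (Gamma0 N) 2)) := rfl
    have h2 : ((CuspForm.heckeAlgebra.T hℓ hℓN (Set.notMem_empty ℓ) -
        (a ℓ : CuspForm.heckeAlgebra N 2 ∅) : CuspForm.heckeAlgebra N 2 ∅) :
        Module.End ℂ (CuspForm (Gamma0 N) 2)) f₀ =
        CuspForm.heckeTLin 2 hℓ hℓN f₀ - ((a ℓ : ℤ) : ℂ) • f₀ := by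
      rw [h1]
      simp
      exact (Int.cast_smul_eq_zsmul ℂ (a ℓ) f₀).symm
    rw [h2, m3_qCoeff_sub, m3_qCoeff_smul, m3_qCoeff_heckeTLin, ← haf (n * ℓ), ← haf (n / ℓ),
      ← haf n]
    have key : (3 : ℤ) ∣ af (n * ℓ) + (if ℓ ∣ n then (ℓ : ℤ) * af (n / ℓ) else 0) -
        a ℓ * af n := by
      have e := heig.2 ℓ hℓ n
      simp only [if_neg hℓN] at e
      rw [mul_comm ℓ n] at e
      obtain ⟨x, hx⟩ := hcong (n * ℓ)
      obtain ⟨y, hy⟩ := hcong (n / ℓ)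
      obtain ⟨z, hz⟩ := hcong n
      obtain ⟨w, hw⟩ := m3_chi_congr ℓ
      by_cases hdvd : ℓ ∣ n
      · simp only [if_pos hdvd] at e ⊢
        exact ⟨x + w * a (n / ℓ) + ℓ * y - a ℓ * z,
          by linear_combination hx + (ℓ : ℤ) * hy - a ℓ * hz + a (n / ℓ) * hw + e⟩
      · simp only [if_neg hdvd] at e ⊢
        exact ⟨x - a ℓ * z, by linear_combination hx - a ℓ * hz + e⟩
    obtain ⟨m, hm⟩ := key
    refine ⟨m, ?_⟩
    have hm' := congrArg (Int.cast : ℤ → ℂ) hm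
    by_cases hdvd : ℓ ∣ n
    · simp only [if_pos hdvd] at hm' ⊢
      push_cast at hm'
      exact hm'
    · simp only [if_neg hdvd] at hm' ⊢
      push_cast at hm'
      exact hm'

/-! ### Lying over -/

theorem m3_lying_over {A : Type*} [CommRing A] (μ : A →+* ℂ) (hint : ∀ t, IsIntegral ℤ (μ t))
    (𝔫 : Ideal A) [𝔫.IsMaximal] (hker : RingHom.ker μ ≤ 𝔫) :
    ∃ Q : Ideal (integralClosure ℤ ℂ), Q.IsMaximal ∧
      ∀ t ∈ 𝔫, ∀ c : integralClosure ℤ ℂ, (c : ℂ) = μ t → c ∈ Q := by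
  let ψ : A →+* integralClosure ℤ ℂ := μ.codRestrict (integralClosure ℤ ℂ) hint
  let _ : Algebra A (integralClosure ℤ ℂ) := ψ.toAlgebra
  have hψ : ∀ t, ((algebraMap A (integralClosure ℤ ℂ) t : integralClosure ℤ ℂ) : ℂ) = μ t :=
    fun t => rfl
  have hII : Algebra.IsIntegral A (integralClosure ℤ ℂ) :=
    ⟨fun x => IsIntegral.tower_top (R := ℤ) (Algebra.IsIntegral.isIntegral x)⟩
  obtain ⟨Q, hQmax, hQ⟩ := Ideal.exists_ideal_over_maximal_of_isIntegral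
    (S := integralClosure ℤ ℂ) 𝔫 (by
      intro t ht
      apply hker
      rw [RingHom.mem_ker] at ht ⊢
      rw [← hψ t, ht]
      rfl)
  refine ⟨Q, hQmax, fun t ht c hc => ?_⟩
  have hc' : c = algebraMap A (integralClosure ℤ ℂ) t := Subtype.ext (by rw [hc, hψ])
  rw [hc']
  rw [← hQ] at ht
  exact ht

end Fermat.Agent.S49
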